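import Mathlib
import Fermat.Prelude.Def_AlgebraicCurve_Correspondence
import Fermat.Agent.S24.Bridge
import Fermat.Agent.S24.Residue
import Fermat.Agent.S24.Decomposition

set_option autoImplicit false
set_option linter.deprecated false
set_option linter.unusedSectionVars false
set_option linter.style.haveILetI false

/-!
# Hecke inputs, local part

`A` is a discrete valuation ring with fraction field `F`, `F'/F` is a finite extension,
`B` is a Dedekind domain, finite over `A`, with fraction field `F'` (the integral closure of `A`
in `F'`).  We compare the places of `F'` above the place `v` of `F` whose valuation ring is `A`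
with the height one primes of `B`.
-/

noncomputable section

open IsDedekindDomain WithZero AlgebraicCurve

namespace Fermat.Agent.HeckeInputs

section DVR

variable {K F F' A B : Type*} [Field K] [Field F] [Field F']
  [Algebra K F] [Algebra K F'] [Algebra F F'] [IsScalarTower K F F'] [FiniteDimensional F F']
  [CommRing A] [IsDomain A] [IsDiscreteValuationRing A] [Algebra A F] [IsFractionRing A F]
  [Algebra A F'] [IsScalarTower A F F'] [Algebra K A] [IsScalarTower K A F]
  [CommRing B] [IsDedekindDomain B] [Algebra A B] [Algebra B F'] [IsFractionRing B F']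
  [IsScalarTower A B F'] [Module.Finite A B] [Module.IsTorsionFree A B]
  [Algebra K B] [IsScalarTower K B F']

variable (v : Place K F)
  (hv : ∀ x : F, x ∈ v.toValuationSubring ↔ x ∈ Set.range (algebraMap A F))

include hv in
theorem hi_algebraMap_mem (a : A) : algebraMap A F a ∈ v.toValuationSubring :=
  (hv _).mpr ⟨a, rfl⟩

/-- the unique height one prime of the discrete valuation ring `A`. -/
def hi_v₀ (A : Type*) [CommRing A] [IsDomain A] [IsDiscreteValuationRing A] :
    HeightOneSpectrum A :=
  IsDiscreteValuationRing.maximalIdeal A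

@[simp]
theorem hi_v₀_asIdeal : (hi_v₀ A).asIdeal = IsLocalRing.maximalIdeal A := rfl

theorem hi_heightOneSpectrum_eq (P₀ : HeightOneSpectrum A) : P₀ = hi_v₀ A := by
  apply HeightOneSpectrum.ext
  rw [hi_v₀_asIdeal]
  exact IsLocalRing.eq_maximalIdeal P₀.isMaximal

include hv in
/-- `v` is the place attached to the maximal ideal of `A`. -/
theorem hi_v_eq : v = Place.ofHeightOneSpectrum (K := K) (F := F) (hi_v₀ A) := by
  obtain ⟨P₀, hP₀⟩ := Fermat.Agent.S24Bridge.exists_eq_ofHeightOneSpectrum (B := A) v
    (hi_algebraMap_mem v hv)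
  rw [hP₀, hi_heightOneSpectrum_eq P₀]

include hv in
theorem hi_ord_eq (f : F) : v.ord f = -(WithZero.log ((hi_v₀ A).valuation F f)) := by
  conv_lhs => rw [hi_v_eq v hv]
  exact Fermat.Agent.S24Bridge.ord_ofHeightOneSpectrum (K := K) (F := F) (hi_v₀ A) f

/-- every height one prime of `B` lies over the maximal ideal of `A`. -/
theorem hi_liesOver (P : HeightOneSpectrum B) :
    P.asIdeal.LiesOver (IsLocalRing.maximalIdeal A) := by
  constructor
  have hprime : (P.asIdeal.comap (algebraMap A B)).IsPrime := Ideal.comap_isPrime _ _
  have hne : P.asIdeal.comap (algebraMap A B) ≠ ⊥ := by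
    haveI : Algebra.IsIntegral A B := Algebra.IsIntegral.of_finite A B
    intro h
    exact P.ne_bot (Ideal.eq_bot_of_comap_eq_bot h)
  have hmax : (P.asIdeal.comap (algebraMap A B)).IsMaximal :=
    Ring.DimensionLEOne.maximalOfPrime hne hprime
  exact (IsLocalRing.eq_maximalIdeal hmax).symm

/-- the place of `F'` attached to a height one prime of `B`. -/
abbrev hi_place (K F' : Type*) {B : Type*} [Field K] [Field F'] [Algebra K F']
    [CommRing B] [IsDedekindDomain B] [Algebra B F'] [IsFractionRing B F']
    [Algebra K B] [IsScalarTower K B F'] (P : HeightOneSpectrum B) : Place K F' :=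
  Place.ofHeightOneSpectrum (K := K) (F := F') P

variable (A) in
include hv in
/-- the place attached to a height one prime of `B` restricts to `v`. -/
theorem hi_restrict_place (P : HeightOneSpectrum B) : (hi_place K F' P).restrict F = v := by
  apply Place.ext
  symm
  apply ValuationSubring.eq_of_le_of_ne_top _ _ ((hi_place K F' P).restrict F).ne_top'
  intro x hx
  obtain ⟨a, rfl⟩ := (hv x).mp hx
  rw [Place.restrict_toValuationSubring, ValuationSubring.mem_comap]
  show P.valuation F' _ ≤ 1
  rw [← IsScalarTower.algebraMap_apply A F F', IsScalarTower.algebraMap_apply A B F']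
  exact P.valuation_le_one _

variable (A) in
include hv in
/-- every place of `F'` above `v` is attached to a height one prime of `B`. -/
theorem hi_exists_place (w : Place K F') (hw : w.restrict F = v) :
    ∃ P : HeightOneSpectrum B, w = hi_place K F' P := by
  apply Fermat.Agent.S24Bridge.exists_eq_ofHeightOneSpectrum (B := B) w
  intro b
  have hR : ∀ a : A, algebraMap A F' a ∈ w.toValuationSubring := by
    intro a
    have h1 : algebraMap A F a ∈ (w.restrict F).toValuationSubring := by
      rw [hw]
      exact hi_algebraMap_mem v hv a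
    rw [Place.mem_restrict_iff, ← IsScalarTower.algebraMap_apply A F F'] at h1
    exact h1
  haveI : Algebra.IsIntegral A B := Algebra.IsIntegral.of_finite A B
  apply Fermat.Agent.S24Bridge.mem_of_isIntegral (R := A) w hR
  have hb : IsIntegral A b := Algebra.IsIntegral.isIntegral b
  exact hb.map (IsScalarTower.toAlgHom A B F')

include hv in
/-- the order at the place attached to `P` of an element of `F`. -/
theorem hi_ord_algebraMap (P : HeightOneSpectrum B) (f : F) :
    (hi_place K F' P).ord (algebraMap F F' f) =
      ((IsLocalRing.maximalIdeal A).ramificationIdx' P.asIdeal : ℤ) * v.ord f := by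
  haveI : P.asIdeal.LiesOver (hi_v₀ A).asIdeal := hi_liesOver P
  rw [hi_ord_eq v hv, Fermat.Agent.S24Bridge.ord_ofHeightOneSpectrum,
    ← HeightOneSpectrum.valuation_liesOver F' (hi_v₀ A) P f, hi_v₀_asIdeal]
  rcases eq_or_ne f 0 with rfl | hf
  · have hpos : (IsLocalRing.maximalIdeal A).ramificationIdx' P.asIdeal ≠ 0 := by
      haveI : P.asIdeal.LiesOver (IsLocalRing.maximalIdeal A) := hi_liesOver P
      exact Ideal.IsDedekindDomain.ramificationIdx'_ne_zero_of_liesOver P.asIdeal
        (IsDiscreteValuationRing.not_a_field A)
    simp [zero_pow hpos]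
  · have h0 : (hi_v₀ A).valuation F f ≠ 0 := (Valuation.ne_zero_iff _).mpr hf
    rw [WithZero.log_pow]
    simp

include hv in
/-- the ramification index of the Prelude agrees with the one of Mathlib. -/
theorem hi_ramificationIndex_eq (P : HeightOneSpectrum B) :
    (hi_place K F' P).ramificationIndex F =
      (IsLocalRing.maximalIdeal A).ramificationIdx' P.asIdeal := by
  obtain ⟨π, hπ⟩ := IsDiscreteValuationRing.exists_irreducible v.toValuationSubring
  have h1 : v.ord (π : F) = 1 := v.ord_coe_irreducible hπ
  have h2 := (hi_place K F' P).ord_restrict (F := F) (π : F)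
  rw [hi_restrict_place A v hv P, h1, mul_one, hi_ord_algebraMap v hv P, h1, mul_one] at h2
  exact_mod_cast h2.symm

/-- the inertia degrees (in the sense of Mathlib) are `1` if the residue field of `A` is `K`. -/
theorem hi_inertiaDeg'_eq_one [IsAlgClosed K]
    (hres : Function.Surjective
      ((Ideal.Quotient.mk (IsLocalRing.maximalIdeal A)).comp (algebraMap K A)))
    (P : HeightOneSpectrum B) :
    (IsLocalRing.maximalIdeal A).inertiaDeg' P.asIdeal = 1 := by
  haveI : P.asIdeal.LiesOver (IsLocalRing.maximalIdeal A) := hi_liesOver P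
  haveI : P.asIdeal.IsMaximal := P.isMaximal
  rw [Ideal.inertiaDeg'_eq_inertiaDeg]
  exact Fermat.Agent.S24Dec.inertiaDeg_eq_one_of_isAlgClosed (K := K)
    (IsLocalRing.maximalIdeal A) hres P.asIdeal

theorem hi_maximalIdeal_ne_bot : IsLocalRing.maximalIdeal A ≠ ⊥ :=
  IsDiscreteValuationRing.not_a_field A

/-- the height one prime attached to an element of `primesOverFinset`. -/
def hi_toH (P : Ideal B)
    (hP : P ∈ IsDedekindDomain.primesOverFinset (IsLocalRing.maximalIdeal A) B) :
    HeightOneSpectrum B :=
  ⟨P, ((IsDedekindDomain.mem_primesOverFinset_iff hi_maximalIdeal_ne_bot B).mp hP).1,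
    Ideal.ne_bot_of_mem_primesOver hi_maximalIdeal_ne_bot
      ((IsDedekindDomain.mem_primesOverFinset_iff hi_maximalIdeal_ne_bot B).mp hP)⟩

theorem hi_mem_primesOverFinset (P : HeightOneSpectrum B) :
    P.asIdeal ∈ IsDedekindDomain.primesOverFinset (IsLocalRing.maximalIdeal A) B :=
  (IsDedekindDomain.mem_primesOverFinset_iff hi_maximalIdeal_ne_bot B).mpr
    ⟨P.isPrime, hi_liesOver P⟩

theorem hi_place_toH_injective :
    Function.Injective
      (fun P : {P // P ∈ IsDedekindDomain.primesOverFinset (IsLocalRing.maximalIdeal A) B} =>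
        hi_place K F' (hi_toH P.1 P.2)) := by
  intro P Q hPQ
  have := Fermat.Agent.S24Bridge.ofHeightOneSpectrum_injective (K := K) (F := F') hPQ
  exact Subtype.ext (congrArg HeightOneSpectrum.asIdeal this)

variable (A B) in
include hv in
/-- the fibre above `v`, in terms of the primes of `B`. -/
theorem hi_fiber_eq [HasPrincipalDivisors K F'] [DecidableEq (Place K F')] :
    v.fiber F' =
      (IsDedekindDomain.primesOverFinset (IsLocalRing.maximalIdeal A) B).attach.image
        (fun P => hi_place K F' (hi_toH P.1 P.2)) := by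
  ext w
  rw [Place.mem_fiber, Finset.mem_image]
  constructor
  · intro hw
    obtain ⟨Q, hQ⟩ := hi_exists_place (B := B) A v hv w hw
    exact ⟨⟨Q.asIdeal, hi_mem_primesOverFinset Q⟩, Finset.mem_attach _ _, hQ.symm⟩
  · rintro ⟨⟨P, hP⟩, -, rfl⟩
    exact hi_restrict_place A v hv _

variable (A B) in
include hv B in
/-- the sum of the ramification indices above `v` is the degree. -/
theorem hi_sum_ramificationIndex [IsAlgClosed K] [HasPrincipalDivisors K F']
    (hres : Function.Surjective
      ((Ideal.Quotient.mk (IsLocalRing.maximalIdeal A)).comp (algebraMap K A))) :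
    ∑ w ∈ v.fiber F', (w.ramificationIndex F : ℤ) = (Module.finrank F F' : ℤ) := by
  classical
  have hp0 := hi_maximalIdeal_ne_bot (A := A)
  have hsum := Ideal.sum_ramification_inertia B F F' hp0
  rw [hi_fiber_eq A B v hv, Finset.sum_image (fun P _ Q _ h => hi_place_toH_injective h),
    ← hsum, Nat.cast_sum,
    ← Finset.sum_attach (IsDedekindDomain.primesOverFinset (IsLocalRing.maximalIdeal A) B)]
  refine Finset.sum_congr rfl fun P _ => ?_
  have h1 : (IsLocalRing.maximalIdeal A).inertiaDeg' P.1 = 1 :=
    hi_inertiaDeg'_eq_one hres (hi_toH P.1 P.2)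
  rw [hi_ramificationIndex_eq v hv, h1, mul_one]
  rfl

end DVR

end Fermat.Agent.HeckeInputs
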