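import Mathlib
import Fermat.Prelude.Def_AlgebraicCurve_Correspondence
import Fermat.Agent.Lib.HeckeInputs.Local

set_option autoImplicit false
set_option linter.deprecated false
set_option linter.unusedSectionVars false
set_option linter.style.haveILetI false

/-!
# Hecke inputs, local part: the norm formula

Same setting as in `Local.lean`; moreover `B` is the integral closure of `A` in `F'`.
For `f : F'` nonzero, `ord_v (N f) = ∑_{w ∣ v} ord_w f`.
-/

noncomputable section

open IsDedekindDomain WithZero AlgebraicCurve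

namespace Fermat.Agent.HeckeInputs

section DVR

variable {K F F' A B : Type*} [Field K] [Field F] [Field F']
  [Algebra K F] [Algebra K F'] [Algebra F F'] [IsScalarTower K F F'] [FiniteDimensional F F']
  [CommRing A] [IsDomain A] [IsDiscreteValuationRing A] [Algebra A F] [IsFractionRing A F]
  [Algebra A F'] [IsScalarTower A F F'] [Algebra K A] [IsScalarTower K A F]
  [CommRing B] [IsDedekindDomain B] [Algebra A B] [Algebra B F'] [IsFractionRing B F']
  [IsScalarTower A B F'] [Module.Finite A B] [Module.IsTorsionFree A B]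
  [Algebra K B] [IsScalarTower K B F']

/-- the sum of the multiplicities of the primes above the maximal ideal of `A`. -/
def hi_totalCount (A : Type*) {B : Type*} [CommRing A] [IsDomain A] [IsDiscreteValuationRing A]
    [CommRing B] [IsDedekindDomain B] [Algebra A B] (I : Ideal B) : ℕ :=
  ∑ P ∈ IsDedekindDomain.primesOverFinset (IsLocalRing.maximalIdeal A) B,
    (Associates.mk P).count (Associates.mk I).factors

theorem hi_irreducible_mk (P : Ideal B)
    (hP : P ∈ IsDedekindDomain.primesOverFinset (IsLocalRing.maximalIdeal A) B) :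
    Irreducible (Associates.mk P) := by
  rw [Associates.irreducible_mk]
  exact (hi_toH P hP).irreducible

theorem hi_totalCount_one : hi_totalCount A (1 : Ideal B) = 0 := by
  unfold hi_totalCount
  refine Finset.sum_eq_zero fun P hP => ?_
  rw [Associates.mk_one, Associates.factors_one]
  exact Associates.count_zero (hi_irreducible_mk P hP)

theorem hi_totalCount_mul {I J : Ideal B} (hI : I ≠ 0) (hJ : J ≠ 0) :
    hi_totalCount A (I * J) = hi_totalCount A I + hi_totalCount A J := by
  unfold hi_totalCount
  rw [← Finset.sum_add_distrib]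
  refine Finset.sum_congr rfl fun P hP => ?_
  rw [Associates.mk_mul_mk.symm]
  exact Associates.count_mul (Associates.mk_ne_zero.mpr hI) (Associates.mk_ne_zero.mpr hJ)
    (hi_irreducible_mk P hP)

theorem hi_totalCount_prime (Q : HeightOneSpectrum B) :
    hi_totalCount A Q.asIdeal = 1 := by
  classical
  unfold hi_totalCount
  rw [Finset.sum_eq_single_of_mem Q.asIdeal (hi_mem_primesOverFinset Q)]
  · exact Associates.count_self (Associates.irreducible_mk.mpr Q.irreducible)
  · intro P hP hPQ
    refine Associates.count_eq_zero_of_ne (hi_irreducible_mk P hP)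
      (Associates.irreducible_mk.mpr Q.irreducible) ?_
    intro h
    apply hPQ
    rw [Associates.mk_eq_mk_iff_associated, associated_iff_eq] at h
    exact h

/-- the relative norm of a height one prime is the maximal ideal. -/
theorem hi_relNorm_prime [IsAlgClosed K] [PerfectField (FractionRing A)]
    (hres : Function.Surjective
      ((Ideal.Quotient.mk (IsLocalRing.maximalIdeal A)).comp (algebraMap K A)))
    (Q : HeightOneSpectrum B) :
    Ideal.relNorm A Q.asIdeal = IsLocalRing.maximalIdeal A := by
  haveI : Q.asIdeal.LiesOver (IsLocalRing.maximalIdeal A) := hi_liesOver Q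
  haveI : Q.asIdeal.IsMaximal := Q.isMaximal
  rw [Ideal.relNorm_eq_pow_of_isMaximal Q.asIdeal (IsLocalRing.maximalIdeal A),
    Fermat.Agent.S24Dec.inertiaDeg_eq_one_of_isAlgClosed (K := K)
      (IsLocalRing.maximalIdeal A) hres Q.asIdeal, pow_one]

/-- the relative norm of a nonzero ideal of `B`. -/
theorem hi_relNorm_eq [IsAlgClosed K] [PerfectField (FractionRing A)]
    (hres : Function.Surjective
      ((Ideal.Quotient.mk (IsLocalRing.maximalIdeal A)).comp (algebraMap K A)))
    (I : Ideal B) (hI : I ≠ 0) :
    Ideal.relNorm A I = IsLocalRing.maximalIdeal A ^ hi_totalCount A I := by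
  induction I using UniqueFactorizationMonoid.induction_on_prime with
  | h₁ => exact absurd rfl hI
  | h₂ x hx =>
    obtain rfl : x = 1 := by rwa [Ideal.isUnit_iff, ← Ideal.one_eq_top] at hx
    rw [map_one, hi_totalCount_one, pow_zero]
  | h₃ a p ha hp ih =>
    have hpQ : p ≠ ⊥ := hp.ne_zero
    have hprime : p.IsPrime := Ideal.isPrime_of_prime hp
    let Q : HeightOneSpectrum B := ⟨p, hprime, hpQ⟩
    have h1 : Ideal.relNorm A p = IsLocalRing.maximalIdeal A := hi_relNorm_prime hres Q
    have h2 : hi_totalCount A p = 1 := hi_totalCount_prime Q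
    rw [map_mul, ih ha, h1, hi_totalCount_mul hp.ne_zero ha, h2, pow_add, pow_one]

variable (v : Place K F)
  (hv : ∀ x : F, x ∈ v.toValuationSubring ↔ x ∈ Set.range (algebraMap A F))

include hv in
/-- the order at `v` of an element of `A` generating the ideal `𝔪 ^ n`. -/
theorem hi_ord_of_span_eq (a : A) (n : ℕ)
    (ha : Ideal.span {a} = IsLocalRing.maximalIdeal A ^ n) :
    v.ord (algebraMap A F a) = n := by
  have ha0 : a ≠ 0 := by
    rintro rfl
    rw [Ideal.span_singleton_eq_bot.mpr rfl] at ha
    exact pow_ne_zero n (hi_maximalIdeal_ne_bot (A := A)) ha.symm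
  conv_lhs => rw [hi_v_eq v hv]
  have hirr : Irreducible (Associates.mk (IsLocalRing.maximalIdeal A)) :=
    Associates.irreducible_mk.mpr (hi_v₀ A).irreducible
  rw [Fermat.Agent.S24Bridge.ord_algebraMap_eq_count (K := K) (F := F) (hi_v₀ A) a ha0, ha,
    hi_v₀_asIdeal, Associates.mk_pow,
    Associates.count_pow (Associates.mk_ne_zero.mpr (hi_maximalIdeal_ne_bot (A := A))) hirr,
    Associates.count_self hirr, mul_one]

variable (A) in
include hv in
/-- the sum of the orders above `v` of an element of `B`. -/
theorem hi_sum_ord_algebraMap [HasPrincipalDivisors K F'] (b : B) (hb : b ≠ 0) :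
    ∑ w ∈ v.fiber F', w.ord (algebraMap B F' b) = (hi_totalCount A (Ideal.span {b}) : ℤ) := by
  classical
  rw [hi_fiber_eq A B v hv, Finset.sum_image (fun P _ Q _ h => hi_place_toH_injective h)]
  unfold hi_totalCount
  rw [Nat.cast_sum,
    ← Finset.sum_attach (IsDedekindDomain.primesOverFinset (IsLocalRing.maximalIdeal A) B)]
  refine Finset.sum_congr rfl fun P _ => ?_
  exact Fermat.Agent.S24Bridge.ord_algebraMap_eq_count (K := K) (F := F') (hi_toH P.1 P.2) b hb

variable (A) in
include hv in
/-- the norm formula for elements of `B`. -/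
theorem hi_ord_norm_algebraMap [IsAlgClosed K] [PerfectField (FractionRing A)]
    [HasPrincipalDivisors K F'] [IsIntegralClosure B A F']
    (hres : Function.Surjective
      ((Ideal.Quotient.mk (IsLocalRing.maximalIdeal A)).comp (algebraMap K A)))
    (b : B) (hb : b ≠ 0) :
    v.ord (Algebra.norm F (algebraMap B F' b)) = ∑ w ∈ v.fiber F', w.ord (algebraMap B F' b) := by
  haveI : Algebra.IsIntegral A B := Algebra.IsIntegral.of_finite A B
  have hI : Ideal.span {b} ≠ (0 : Ideal B) := by
    rw [Ne, Ideal.zero_eq_bot, Ideal.span_singleton_eq_bot]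
    exact hb
  rw [hi_sum_ord_algebraMap A v hv b hb, ← Algebra.algebraMap_intNorm (A := A) (K := F)]
  apply hi_ord_of_span_eq v hv
  rw [← Ideal.relNorm_singleton, hi_relNorm_eq hres _ hI]

variable (A B) in
include hv B in
/-- the norm formula: `ord_v (N f) = ∑_{w ∣ v} ord_w f`. -/
theorem hi_ord_norm [IsAlgClosed K] [PerfectField (FractionRing A)]
    [HasPrincipalDivisors K F'] [IsIntegralClosure B A F']
    (hres : Function.Surjective
      ((Ideal.Quotient.mk (IsLocalRing.maximalIdeal A)).comp (algebraMap K A)))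
    (f : F') (hf : f ≠ 0) :
    v.ord (Algebra.norm F f) = ∑ w ∈ v.fiber F', w.ord f := by
  obtain ⟨b₁, b₂, hb₂, rfl⟩ := IsFractionRing.div_surjective (A := B) f
  have hb₂0 : b₂ ≠ 0 := nonZeroDivisors.ne_zero hb₂
  have hb₁0 : b₁ ≠ 0 := by
    rintro rfl
    simp at hf
  have h1 : algebraMap B F' b₁ ≠ 0 := by
    rwa [Ne, map_eq_zero_iff _ (IsFractionRing.injective B F')]
  have h2 : algebraMap B F' b₂ ≠ 0 := by
    rwa [Ne, map_eq_zero_iff _ (IsFractionRing.injective B F')]
  have hn1 : Algebra.norm F (algebraMap B F' b₁) ≠ 0 := Algebra.norm_ne_zero_iff.mpr h1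
  have hn2 : Algebra.norm F (algebraMap B F' b₂) ≠ 0 := Algebra.norm_ne_zero_iff.mpr h2
  have hinv : Algebra.norm F (algebraMap B F' b₂)⁻¹ = (Algebra.norm F (algebraMap B F' b₂))⁻¹ := by
    apply eq_inv_of_mul_eq_one_left
    rw [← map_mul, inv_mul_cancel₀ h2, map_one]
  rw [div_eq_mul_inv, map_mul, hinv, v.ord_mul hn1 (inv_ne_zero hn2), v.ord_inv,
    hi_ord_norm_algebraMap A v hv hres b₁ hb₁0, hi_ord_norm_algebraMap A v hv hres b₂ hb₂0,
    ← sub_eq_add_neg, ← Finset.sum_sub_distrib]
  refine Finset.sum_congr rfl fun w _ => ?_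
  rw [w.ord_mul h1 (inv_ne_zero h2), w.ord_inv, sub_eq_add_neg]

end DVR

section Pushforward

variable {K F F' : Type*} [Field K] [Field F] [Field F']
  [Algebra K F] [Algebra K F'] [Algebra F F'] [IsScalarTower K F F']
  [Algebra.IsIntegral F F'] [HasPrincipalDivisors K F']

/-- the value of the push forward of a divisor, as a sum over the fibre. -/
theorem hi_pushforward_apply (D : Divisor K F') (v : Place K F) :
    Divisor.pushforward F D v = ∑ w ∈ v.fiber F', D w * (w.inertiaDeg F : ℤ) := by
  classical
  rw [Divisor.pushforward_apply, ← Finset.sum_filter]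
  have h1 : ∑ w ∈ v.fiber F', D w * (w.inertiaDeg F : ℤ) =
      ∑ w ∈ (v.fiber F').filter (fun w => w ∈ D.support), D w * (w.inertiaDeg F : ℤ) := by
    rw [Finset.sum_filter]
    refine Finset.sum_congr rfl fun w _ => ?_
    split_ifs with h
    · rfl
    · rw [Finsupp.notMem_support_iff.mp h, zero_mul]
  rw [h1]
  refine Finset.sum_congr ?_ fun _ _ => rfl
  ext w
  simp only [Finset.mem_filter, Place.mem_fiber]
  exact and_comm

end Pushforward

end Fermat.Agent.HeckeInputs
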