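import Mathlib
import Fermat.Prelude.Def_AlgebraicCurve_Correspondence
import Fermat.Agent.S24.FFDefs
import Fermat.Agent.Lib.HeckeInputs.Local
import Fermat.Agent.Lib.HeckeInputs.Norm

set_option autoImplicit false
set_option linter.deprecated false
set_option linter.unusedSectionVars false
set_option linter.style.haveILetI false

/-!
# Hecke inputs: the fundamental identity and the norm formula for function fields

`K` algebraically closed of characteristic zero, `F'/F` a finite extension of function fields in
one variable over `K`.  Then

* `hi_sumRamificationInertia : SumRamificationInertia K F F'`,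
* `hi_fundamentalIdentity : FundamentalIdentity K F F'`,
* `hi_pushforwardNormFormula : Divisor.PushforwardNormFormula K F F'`.
-/

noncomputable section

open IsDedekindDomain WithZero AlgebraicCurve Fermat.Agent.S24Diff

namespace Fermat.Agent.HeckeInputs

section Global

variable {K F F' : Type*} [Field K] [Field F] [Field F']
  [Algebra K F] [Algebra K F'] [Algebra F F'] [IsScalarTower K F F'] [FiniteDimensional F F']
  [IsAlgClosed K] [CharZero K]

/-- every place of a function field over an algebraically closed field has inertia degree `1`. -/
theorem hi_inertiaDeg_eq_one {x' : F'} (h' : IsFunctionFieldOver K F' x') (w : Place K F') :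
    w.inertiaDeg F = 1 := by
  have h1 := w.deg_restrict_mul_inertiaDeg (F := F)
  rw [Fermat.Agent.S24Res.deg_eq_one h' w] at h1
  exact Nat.eq_one_of_mul_eq_one_left h1

section Local

variable (v : Place K F)

/-- the algebra structure of `F'` over the valuation ring of `v`. -/
abbrev hi_algA : Algebra v.toValuationSubring F' :=
  ((algebraMap F F').comp (algebraMap v.toValuationSubring F)).toAlgebra

theorem hi_towerA : letI := hi_algA (F' := F') v; IsScalarTower v.toValuationSubring F F' :=
  letI := hi_algA (F' := F') v
  IsScalarTower.of_algebraMap_eq fun _ => rfl

theorem hi_towerKA : letI := hi_algA (F' := F') v; IsScalarTower K v.toValuationSubring F' :=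
  letI := hi_algA (F' := F') v
  IsScalarTower.of_algebraMap_eq fun a => by
    show algebraMap K F' a = algebraMap F F' ((algebraMap K v.toValuationSubring a : _) : F)
    rw [Place.coe_algebraMap, ← IsScalarTower.algebraMap_apply]

theorem hi_hv (x : F) :
    x ∈ v.toValuationSubring ↔ x ∈ Set.range (algebraMap v.toValuationSubring F) := by
  constructor
  · intro hx
    exact ⟨⟨x, hx⟩, rfl⟩
  · rintro ⟨a, rfl⟩
    exact a.2

theorem hi_hres {x : F} (h : IsFunctionFieldOver K F x) :
    Function.Surjective
      ((Ideal.Quotient.mk (IsLocalRing.maximalIdeal v.toValuationSubring)).comp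
        (algebraMap K v.toValuationSubring)) := by
  intro z
  obtain ⟨f, rfl⟩ := Ideal.Quotient.mk_surjective z
  obtain ⟨a, ha⟩ := Fermat.Agent.S24Res.exists_sub_mem_maximalIdeal h v f
  refine ⟨a, ?_⟩
  rw [RingHom.comp_apply, eq_comm, Ideal.Quotient.eq]
  exact ha

variable (F') in
/-- the sum of the ramification indices above `v` is the degree of `F'/F`. -/
theorem hi_sum_ramificationIndex_global [HasPrincipalDivisors K F'] {x : F}
    (h : IsFunctionFieldOver K F x) :
    ∑ w ∈ v.fiber F', (w.ramificationIndex F : ℤ) = (Module.finrank F F' : ℤ) := by
  letI := hi_algA (F' := F') v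
  haveI := hi_towerA (F' := F') v
  haveI := hi_towerKA (F' := F') v
  haveI : CharZero F := charZero_of_injective_algebraMap (algebraMap K F).injective
  haveI : Algebra.IsSeparable F F' := inferInstance
  haveI : IsDedekindDomain (integralClosure v.toValuationSubring F') :=
    integralClosure.isDedekindDomain v.toValuationSubring F F'
  haveI : IsFractionRing (integralClosure v.toValuationSubring F') F' :=
    integralClosure.isFractionRing_of_finite_extension F F'
  haveI : Module.Finite v.toValuationSubring (integralClosure v.toValuationSubring F') :=
    IsIntegralClosure.finite v.toValuationSubring F F' _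
  haveI : Module.IsTorsionFree v.toValuationSubring (integralClosure v.toValuationSubring F') := by
    haveI : Module.IsTorsionFree v.toValuationSubring F' :=
      .trans_faithfulSMul v.toValuationSubring F F'
    exact IsIntegralClosure.isTorsionFree v.toValuationSubring F'
  exact hi_sum_ramificationIndex v.toValuationSubring (integralClosure v.toValuationSubring F') v
    (hi_hv v) (hi_hres v h)

variable (F') in
/-- the norm formula at `v`. -/
theorem hi_ord_norm_global [HasPrincipalDivisors K F'] {x : F}
    (h : IsFunctionFieldOver K F x) (f : F') (hf : f ≠ 0) :
    v.ord (Algebra.norm F f) = ∑ w ∈ v.fiber F', w.ord f := by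
  letI := hi_algA (F' := F') v
  haveI := hi_towerA (F' := F') v
  haveI := hi_towerKA (F' := F') v
  haveI : CharZero F := charZero_of_injective_algebraMap (algebraMap K F).injective
  haveI : Algebra.IsSeparable F F' := inferInstance
  haveI : IsDedekindDomain (integralClosure v.toValuationSubring F') :=
    integralClosure.isDedekindDomain v.toValuationSubring F F'
  haveI : IsFractionRing (integralClosure v.toValuationSubring F') F' :=
    integralClosure.isFractionRing_of_finite_extension F F'
  haveI : Module.Finite v.toValuationSubring (integralClosure v.toValuationSubring F') :=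
    IsIntegralClosure.finite v.toValuationSubring F F' _
  haveI : Module.IsTorsionFree v.toValuationSubring (integralClosure v.toValuationSubring F') := by
    haveI : Module.IsTorsionFree v.toValuationSubring F' :=
      .trans_faithfulSMul v.toValuationSubring F F'
    exact IsIntegralClosure.isTorsionFree v.toValuationSubring F'
  haveI : CharZero (FractionRing v.toValuationSubring) :=
    charZero_of_injective_algebraMap
      ((algebraMap v.toValuationSubring (FractionRing v.toValuationSubring)).comp
        (algebraMap K v.toValuationSubring)).injective
  exact hi_ord_norm v.toValuationSubring (integralClosure v.toValuationSubring F') v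
    (hi_hv v) (hi_hres v h) f hf

end Local

variable (K F F') in
/-- `∑ e f = n` for a finite extension of function fields. -/
theorem hi_sumRamificationInertia [HasPrincipalDivisors K F'] {x : F} {x' : F'}
    (h : IsFunctionFieldOver K F x) (h' : IsFunctionFieldOver K F' x') :
    SumRamificationInertia K F F' where
  sum_ramificationIndex_mul_inertiaDeg v := by
    rw [← hi_sum_ramificationIndex_global F' v h]
    refine Finset.sum_congr rfl fun w _ => ?_
    rw [hi_inertiaDeg_eq_one h' w, Nat.cast_one, mul_one]

variable (K F F') in
/-- the fundamental identity for a finite extension of function fields. -/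
theorem hi_fundamentalIdentity [HasPrincipalDivisors K F'] {x : F} {x' : F'}
    (h : IsFunctionFieldOver K F x) (h' : IsFunctionFieldOver K F' x') :
    FundamentalIdentity K F F' :=
  haveI := hi_sumRamificationInertia K F F' h h'
  inferInstance

variable (K F F') in
/-- the norm formula for a finite extension of function fields. -/
theorem hi_pushforwardNormFormula [HasPrincipalDivisors K F'] {x : F} {x' : F'}
    (h : IsFunctionFieldOver K F x) (h' : IsFunctionFieldOver K F' x') :
    Divisor.PushforwardNormFormula K F F' := by
  intro f hf D hD v
  rw [hi_pushforward_apply, hi_ord_norm_global F' v h f hf]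
  refine Finset.sum_congr rfl fun w _ => ?_
  rw [hi_inertiaDeg_eq_one h' w, Nat.cast_one, mul_one, hD]

end Global

end Fermat.Agent.HeckeInputs
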